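import Mathlib
import Fermat.Agent.H89.MW.LpfInterfaces

/-!
# P-MW / LPF-L1 (row 793, helper4): the lattice determinant

`latticeDet (hCB : CauchyBinetStatement) : LatticeDetStatement`.
-/

set_option autoImplicit false

noncomputable section

namespace Fermat.Agent.H4.MW

open Fermat.Agent.H92.MW Fermat.Agent.H89.MW Matrix

section Aux

variable {𝒦 : Type} [Field 𝒦] (V : ValuationSubring 𝒦)

/-- The determinant of a matrix with entries in `V` lies in `V`. -/
theorem det_mem_of_entries {m : ℕ} (A : Matrix (Fin m) (Fin m) 𝒦) (hA : ∀ i j, A i j ∈ V) :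
    A.det ∈ V := by
  let A' : Matrix (Fin m) (Fin m) V := fun i j => ⟨A i j, hA i j⟩
  have h : A = V.subtype.mapMatrix A' := by
    ext i j
    rfl
  rw [h, ← RingHom.map_det]
  exact (A'.det).2

/-- A matrix over `V` congruent to `1` modulo the maximal ideal has a unit determinant. -/
theorem valuation_det_eq_one {m : ℕ} (P : Matrix (Fin m) (Fin m) 𝒦) (hP : ∀ i j, P i j ∈ V)
    (h1 : ∀ i j, V.valuation ((P - 1) i j) < 1) : V.valuation P.det = 1 := by
  let P' : Matrix (Fin m) (Fin m) V := fun i j => ⟨P i j, hP i j⟩
  have hPmap : P = V.subtype.mapMatrix P' := by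
    ext i j
    rfl
  have hres : (IsLocalRing.residue V).mapMatrix P' = 1 := by
    ext i j
    have hmem : P' i j - (1 : Matrix (Fin m) (Fin m) V) i j ∈ IsLocalRing.maximalIdeal V := by
      rw [ValuationSubring.valuation_lt_one_iff]
      have e : ((P' i j - (1 : Matrix (Fin m) (Fin m) V) i j : V) : 𝒦) = (P - 1) i j := by
        rw [Matrix.sub_apply]
        by_cases hij : i = j
        · subst hij
          simp [P']
        · simp [P', Matrix.one_apply_ne hij]
      rw [e]
      exact h1 i j
    have h0 := (IsLocalRing.residue_eq_zero_iff _).2 hmem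
    rw [map_sub, sub_eq_zero] at h0
    rw [RingHom.mapMatrix_apply, Matrix.map_apply, h0]
    by_cases hij : i = j
    · subst hij
      simp
    · simp [Matrix.one_apply_ne hij]
  have hdet : IsLocalRing.residue V P'.det = 1 := by
    rw [RingHom.map_det, hres, det_one]
  have hunit : IsUnit P'.det := by
    by_contra hnu
    have hm : P'.det ∈ IsLocalRing.maximalIdeal V := (IsLocalRing.mem_maximalIdeal _).2 hnu
    rw [← IsLocalRing.residue_eq_zero_iff] at hm
    rw [hm] at hdet
    exact zero_ne_one hdet
  have hcoe : P.det = ((P'.det : V) : 𝒦) := by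
    rw [hPmap, ← RingHom.map_det]
    rfl
  rw [hcoe]
  exact (V.valuation_eq_one_iff _).1 hunit

end Aux

/-- The maximal minor of a square matrix at the full set of columns is the determinant. -/
theorem minorVec_univ {K : Type*} [CommRing K] {d : ℕ} (A : Matrix (Fin d) (Fin d) K)
    (h : (Finset.univ : Finset (Fin d)).card = d) :
    minorVec A ⟨Finset.univ, h⟩ = A.det := by
  unfold minorVec
  have hid : ((Finset.univ : Finset (Fin d)).orderEmbOfFin h : Fin d → Fin d) = id := by
    symm
    exact Finset.orderEmbOfFin_unique h (fun _ => Finset.mem_univ _) strictMono_id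
  congr 1
  ext i j
  simp only [Matrix.submatrix_apply, id_eq]
  rw [hid]
  rfl

/-- **[LPF-L1] Lattice determinant.** -/
theorem latticeDet (hCB : CauchyBinetStatement) : LatticeDetStatement := by
  intro 𝒦 _ V d n B S T hS hT hST
  -- (1) the minors of `B * S`
  have h1 : ∀ J, minorVec (B * S) J = B.det * minorVec S J := by
    intro J
    unfold minorVec
    have : (B * S).submatrix id (J.1.orderEmbOfFin J.2)
        = B * S.submatrix id (J.1.orderEmbOfFin J.2) := by
      ext i j
      simp [Matrix.mul_apply]
    rw [this, Matrix.det_mul]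
  -- (2) the minors of `S` are integral
  have h2 : ∀ J, V.valuation (minorVec S J) ≤ 1 := fun J =>
    (V.valuation_le_one_iff _).2 (det_mem_of_entries V _ (fun i j => hS _ _))
  have h2T : ∀ (u : {u : Finset (Fin n) // u.card = d}) (s : {s : Finset (Fin d) // s.card = d}),
      V.valuation (T.submatrix (u.1.orderEmbOfFin u.2) (s.1.orderEmbOfFin s.2)).det ≤ 1 :=
    fun u s => (V.valuation_le_one_iff _).2 (det_mem_of_entries V _ (fun i j => hT _ _))
  -- (3) some minor of `S` is a unit
  have h3 : ∃ u, V.valuation (minorVec S u) = 1 := by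
    by_contra hno
    push Not at hno
    have hlt : ∀ u, V.valuation (minorVec S u) < 1 := fun u => lt_of_le_of_ne (h2 u) (hno u)
    have hSTmem : ∀ i j, (S * T) i j ∈ V := by
      intro i j
      rw [Matrix.mul_apply]
      exact sum_mem fun l _ => V.mul_mem _ _ (hS i l) (hT l j)
    have hdet : V.valuation (S * T).det = 1 := valuation_det_eq_one V (S * T) hSTmem hST
    have hcard : (Finset.univ : Finset (Fin d)).card = d := by simp
    have hcb := hCB 𝒦 d n d S T ⟨Finset.univ, hcard⟩
    rw [minorVec_univ] at hcb
    rw [hcb] at hdet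
    have hsum := Valuation.map_sum_lt V.valuation (one_ne_zero)
      (s := Finset.univ)
      (f := fun u : {u : Finset (Fin n) // u.card = d} => minorVec S u *
        (T.submatrix (u.1.orderEmbOfFin u.2)
          ((Finset.univ : Finset (Fin d)).orderEmbOfFin hcard)).det)
      (fun u _ => by
        rw [map_mul]
        calc V.valuation (minorVec S u) * V.valuation _
            ≤ V.valuation (minorVec S u) * 1 := by
              gcongr
              exact h2T u ⟨Finset.univ, hcard⟩
          _ < 1 := by rw [mul_one]; exact hlt u)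
    rw [hdet] at hsum
    exact lt_irrefl _ hsum
  obtain ⟨u, hu⟩ := h3
  -- (4) conclusion
  apply le_antisymm
  · refine Finset.sup_le fun J _ => ?_
    rw [h1, map_mul]
    calc V.valuation B.det * V.valuation (minorVec S J)
        ≤ V.valuation B.det * 1 := by
          gcongr
          exact h2 J
      _ = V.valuation B.det := mul_one _
  · have e : V.valuation B.det = V.valuation (minorVec (B * S) u) := by
      rw [h1, map_mul, hu, mul_one]
    rw [e]
    exact Finset.le_sup (f := fun J => V.valuation (minorVec (B * S) J)) (Finset.mem_univ u)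

end Fermat.Agent.H4.MW
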