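import Mathlib
import Fermat.Agent.H92.MW.ModInterfaces
import Fermat.Agent.H92.MW.AsmInterfaces
import Fermat.Agent.H15.MW.Skeleton

/-!
# P-MW / MW-FINAL part (1) (row 699, helper4): transport of the quasi-quadratic height

`quadHeight_of_datum`: a quasi-quadratic Northcott height on the class group of every
Mordell-Weil datum, together with the modular datum `Cl(R) ≃ J₀(N)(ℚ)`, gives
`Fermat.Agent.H15.MW.QuadHeightStatement N`.

`final_of_quad`: the final wiring `AddGroup.FG (JQ N)` from weak Mordell-Weil at `2`.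
-/

set_option autoImplicit false

noncomputable section

namespace Fermat.Agent.H4.MW

open Fermat.Agent.H92.MW

/-- Transport of a quasi-quadratic Northcott height along an additive equivalence
`Additive G ≃+ A`. -/
theorem quad_transport {G A : Type*} [CommGroup G] [AddCommGroup A] (e : Additive G ≃+ A)
    (h : G → ℝ) (C : ℝ) (h0 : ∀ x, 0 ≤ h x)
    (hpar : ∀ x y, |h (x * y) + h (x / y) - 2 * (h x + h y)| ≤ C)
    (hfin : ∀ B : ℝ, {x : G | h x ≤ B}.Finite) :
    ∃ (h' : A → ℝ) (C' : ℝ), (∀ x, 0 ≤ h' x) ∧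
      (∀ x y, |h' (x + y) + h' (x - y) - 2 * (h' x + h' y)| ≤ C') ∧
      ∀ B : ℝ, {x : A | h' x ≤ B}.Finite := by
  refine ⟨fun x => h (Additive.toMul (e.symm x)), C, fun x => h0 _, fun x y => ?_, fun B => ?_⟩
  · have h1 : Additive.toMul (e.symm (x + y))
        = Additive.toMul (e.symm x) * Additive.toMul (e.symm y) := by
      rw [map_add]; rfl
    have h2 : Additive.toMul (e.symm (x - y))
        = Additive.toMul (e.symm x) / Additive.toMul (e.symm y) := by
      rw [map_sub]; rfl
    show |h (Additive.toMul (e.symm (x + y))) + h (Additive.toMul (e.symm (x - y)))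
      - 2 * (h (Additive.toMul (e.symm x)) + h (Additive.toMul (e.symm y)))| ≤ C
    rw [h1, h2]
    exact hpar _ _
  · have hsub : {x : A | h (Additive.toMul (e.symm x)) ≤ B}
        ⊆ (fun g : G => e (Additive.ofMul g)) '' {x : G | h x ≤ B} := by
      intro x hx
      refine ⟨Additive.toMul (e.symm x), hx, ?_⟩
      show e (Additive.ofMul (Additive.toMul (e.symm x))) = x
      rw [ofMul_toMul, AddEquiv.apply_symm_apply]
    exact ((hfin B).image _).subset hsub

/-- **MW-FINAL (1)**: the quasi-quadratic height of the datum of `X₀(N)` gives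
`QuadHeightStatement N`. -/
theorem quadHeight_of_datum (hD : ModularDatumStatement)
    (hQ : ∀ (R : Type) [CommRing R] [Algebra ℚ R] [IsDedekindDomain R] (𝒞 : MWDatum R),
      𝒞.QuadStatement) (N : ℕ) [NeZero N] (hN : N.Prime) (h5 : 5 ≤ N) :
    Fermat.Agent.H15.MW.QuadHeightStatement N := by
  obtain ⟨R, i1, i2, i3, 𝒞, ⟨e⟩⟩ := hD N hN h5
  obtain ⟨h, C, h0, hpar, hfin⟩ := hQ R 𝒞
  exact quad_transport e h C h0 hpar hfin

/-- The weak Mordell-Weil statements of the two interface files agree. -/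
theorem weakMW_iff (N : ℕ) :
    Fermat.Agent.H15.MW.WeakMWStatement N 2 ↔
      (nsmulAddMonoidHom (α := ↥(JQ N)) 2).range.FiniteIndex := Iff.rfl

/-- **MW-FINAL, wiring**: weak Mordell-Weil at `2`, the modular datum and the quasi-quadratic
heights give Mordell-Weil. -/
theorem final_of_quad (hD : ModularDatumStatement)
    (hQ : ∀ (R : Type) [CommRing R] [Algebra ℚ R] [IsDedekindDomain R] (𝒞 : MWDatum R),
      𝒞.QuadStatement)
    (hW : WeakMWStatement) (N : ℕ) [NeZero N] (hN : N.Prime) (h5 : 5 ≤ N) :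
    AddGroup.FG ↥(JQ N) :=
  Fermat.Agent.H15.MW.fg_of_weak_of_quadHeight N (hW N hN h5)
    (quadHeight_of_datum hD hQ N hN h5)

/-- **MW-FINAL, wiring (skeleton form)**: the same with the weak Mordell-Weil statement of
`Fermat.Agent.H15.MW`, in the exact shape of the frozen statement S17. -/
theorem s17_of_inputs (hD : ModularDatumStatement)
    (hQ : ∀ (R : Type) [CommRing R] [Algebra ℚ R] [IsDedekindDomain R] (𝒞 : MWDatum R),
      𝒞.QuadStatement)
    (N : ℕ) [NeZero N] (hN : N.Prime) (h5 : 5 ≤ N)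
    (hW : Fermat.Agent.H15.MW.WeakMWStatement N 2) :
    AddGroup.FG ↥(FixedPoints.addSubgroup ((AlgebraicClosure ℚ) ≃ₐ[ℚ] (AlgebraicClosure ℚ))
      (ModularCurve.JZero N)) :=
  Fermat.Agent.H15.MW.fg_of_weak_of_quadHeight N hW (quadHeight_of_datum hD hQ N hN h5)

end Fermat.Agent.H4.MW
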